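import Fermat.Agent.S14.FirstIneq.Defs

/-!
# S14 / FirstIneq / H1 / Count : an abstract counting lemma for relative indices
(block architect of `H1`: helper32).
-/

set_option autoImplicit false

namespace Fermat.Agent.S14.FirstIneq

/-- If a map `θ : K → X` into a finite type separates the cosets of `H` in `K`
(`θ x = θ y → x⁻¹ y ∈ H`), then `[K : H ∩ K] ≤ #X`. -/
theorem H1.relIndex_le_card {G : Type*} [Group G] (H K : Subgroup G) {X : Type*} [Finite X]
    (θ : K → X) (h : ∀ x y : K, θ x = θ y → (x : G)⁻¹ * (y : G) ∈ H) :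
    H.relIndex K ≤ Nat.card X := by
  rw [Subgroup.relIndex, Subgroup.index]
  refine Nat.card_le_card_of_injective (fun q : K ⧸ H.subgroupOf K => θ q.out) ?_
  intro q q' hqq
  have h1 : ((q.out : K) : G)⁻¹ * ((q'.out : K) : G) ∈ H := h _ _ hqq
  have h2 : (q.out : K)⁻¹ * (q'.out : K) ∈ H.subgroupOf K := by
    rw [Subgroup.mem_subgroupOf]
    simpa using h1
  have h3 : ((q.out : K) : K ⧸ H.subgroupOf K) = ((q'.out : K) : K ⧸ H.subgroupOf K) :=
    QuotientGroup.eq.mpr h2
  rwa [QuotientGroup.out_eq', QuotientGroup.out_eq'] at h3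

end Fermat.Agent.S14.FirstIneq
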