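import Fermat.Agent.S14.FirstIneq.Fix

/-!
# S14 / FirstIneq / H1 / Hilbert : Hilbert's theorem 90 in the `unitsAut` / `normHom` language
(block architect of `H1`: helper32).
-/

set_option autoImplicit false
set_option linter.unusedSectionVars false

namespace Fermat.Agent.S14.FirstIneq

open NumberField IsDedekindDomain UniqueFactorizationMonoid
open scoped Pointwise

universe u v

variable {p : ℕ} [Fact p.Prime]
variable (F : Type u) (N : Type v) [Field F] [NumberField F] [Field N] [NumberField N]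
  [Algebra F N] [IsGalois F N]

/-- `δ = σ(·)/(·)` kills the image of `Fˣ`. -/
theorem H1.delHom_unitsIncl (σ : N ≃ₐ[F] N) (c : Fˣ) :
    delHom (unitsAut F N σ) (unitsIncl F N c) = 1 := by
  rw [delHom_apply, div_eq_one]
  apply Units.ext
  simp

/-- `unitsAut` is multiplicative in the automorphism. -/
theorem H1.Hilbert_unitsAut_mul (g h : N ≃ₐ[F] N) (z : Nˣ) :
    unitsAut F N (g * h) z = unitsAut F N g (unitsAut F N h z) := by
  apply Units.ext
  rfl

/-- `P (a + b) = P a * σ^a (P b)` for the partial norms `P k = ∏_{i<k} σ^i ε`. -/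
theorem H1.Hilbert_normHom_add (σ : N ≃ₐ[F] N) (ε : Nˣ) (a b : ℕ) :
    normHom (unitsAut F N σ) (a + b) ε =
      normHom (unitsAut F N σ) a ε *
        unitsAut F N (σ ^ a) (normHom (unitsAut F N σ) b ε) := by
  simp only [normHom_apply]
  rw [Finset.prod_range_add, map_prod]
  congr 1
  refine Finset.prod_congr rfl (fun i _ => ?_)
  rw [unitsAut_iterate, unitsAut_iterate, pow_add, H1.Hilbert_unitsAut_mul]

/-- If `P p = 1` then `P (a + p * m) = P a`. -/
theorem H1.Hilbert_normHom_add_mul (σ : N ≃ₐ[F] N) {ε : Nˣ}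
    (hε : normHom (unitsAut F N σ) p ε = 1) (a m : ℕ) :
    normHom (unitsAut F N σ) (a + p * m) ε = normHom (unitsAut F N σ) a ε := by
  induction m with
  | zero => simp
  | succ m ih =>
    rw [Nat.mul_succ, ← add_assoc, H1.Hilbert_normHom_add, hε, map_one, mul_one, ih]

/-- `P a = P b` when `σ ^ a = σ ^ b` (`σ ≠ 1` of prime order `p`, `P p = 1`). -/
theorem H1.Hilbert_normHom_congr (hdeg : Module.finrank F N = p) {σ : N ≃ₐ[F] N} (hσ : σ ≠ 1)
    {ε : Nˣ} (hε : normHom (unitsAut F N σ) p ε = 1) {a b : ℕ} (hab : σ ^ a = σ ^ b) :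
    normHom (unitsAut F N σ) a ε = normHom (unitsAut F N σ) b ε := by
  have hp : p.Prime := Fact.out
  have hord : orderOf σ = p := by
    have h1 : orderOf σ ∣ p := orderOf_dvd_of_pow_eq_one (pow_card_eq_one F N hdeg σ)
    rcases (Nat.dvd_prime hp).mp h1 with h | h
    · exact absurd (orderOf_eq_one_iff.mp h) hσ
    · exact h
  have hmod : a ≡ b [MOD p] := by
    rw [← hord]
    exact pow_eq_pow_iff_modEq.mp hab
  have key : ∀ a b : ℕ, a ≤ b → a ≡ b [MOD p] →
      normHom (unitsAut F N σ) a ε = normHom (unitsAut F N σ) b ε := by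
    intro a b hle hmod
    obtain ⟨m, hm⟩ := (Nat.modEq_iff_dvd' hle).mp hmod
    have hb : b = a + p * m := by omega
    rw [hb, H1.Hilbert_normHom_add_mul F N σ hε]
  rcases le_total a b with hle | hle
  · exact key a b hle hmod
  · exact (key b a hle hmod.symm).symm

/-- **Hilbert 90** for `N/F` cyclic of prime degree `p` with generator `σ`: an element of `Nˣ`
killed by `ν = ∏_{i<p} σ^i` is of the form `σ γ / γ`. -/
theorem H1.hilbert90 (hdeg : Module.finrank F N = p) {σ : N ≃ₐ[F] N} (hσ : σ ≠ 1) {ε : Nˣ}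
    (hε : ε ∈ (normHom (unitsAut F N σ) p).ker) :
    ∃ γ : Nˣ, delHom (unitsAut F N σ) γ = ε := by
  have hp : p.Prime := Fact.out
  rw [MonoidHom.mem_ker] at hε
  have : FiniteDimensional F N :=
    Module.finite_of_finrank_pos (by rw [hdeg]; exact hp.pos)
  -- every automorphism is a natural power of `σ`
  have hpow : ∀ τ : N ≃ₐ[F] N, ∃ k : ℕ, σ ^ k = τ := by
    intro τ
    have hfin : IsOfFinOrder σ :=
      isOfFinOrder_iff_pow_eq_one.mpr ⟨p, hp.pos, pow_card_eq_one F N hdeg σ⟩
    exact (Submonoid.mem_powers_iff τ σ).mp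
      (hfin.mem_powers_iff_mem_zpowers.mpr (mem_zpowers_of_ne_one F N hdeg hσ τ))
  choose k hk using hpow
  -- the cocycle `σ ^ k ↦ ∏_{i<k} σ^i ε`
  have hf : groupCohomology.IsMulCocycle₁
      (fun τ : N ≃ₐ[F] N => normHom (unitsAut F N σ) (k τ) ε) := by
    intro g h
    have h1 : σ ^ (k (g * h)) = σ ^ (k g + k h) := by rw [hk, pow_add, hk, hk]
    show normHom (unitsAut F N σ) (k (g * h)) ε =
      g • normHom (unitsAut F N σ) (k h) ε * normHom (unitsAut F N σ) (k g) ε
    rw [H1.Hilbert_normHom_congr F N hdeg hσ hε h1, H1.Hilbert_normHom_add, hk, mul_comm]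
    rfl
  obtain ⟨β, hβ⟩ := groupCohomology.isMulCoboundary₁_of_isMulCocycle₁_of_aut_to_units _ hf
  refine ⟨β, ?_⟩
  have h1 : σ • β / β = normHom (unitsAut F N σ) (k σ) ε := hβ σ
  have h2 : normHom (unitsAut F N σ) (k σ) ε = ε := by
    have h3 : σ ^ (k σ) = σ ^ 1 := by rw [hk, pow_one]
    rw [H1.Hilbert_normHom_congr F N hdeg hσ hε h3]
    simp [normHom_apply]
  rw [← h2, ← h1]
  rfl

end Fermat.Agent.S14.FirstIneq
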