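import Fermat.Agent.S14.FirstIneq.OrdRel
import Fermat.Agent.S14.FirstIneq.ClassGen

/-!
# S14 / FirstIneq / H1 / Kernel : an element of `Nˣ` whose valuations outside `S` are constant on
Galois orbits and divisible by `p` at the ramified primes differs from an `S`-unit of `N` by an
element of `Fˣ` (ambiguous ideals; block architect of `H1`: helper32).
-/

set_option autoImplicit false
set_option linter.unusedSectionVars false

namespace Fermat.Agent.S14.FirstIneq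

open NumberField IsDedekindDomain UniqueFactorizationMonoid
open scoped Pointwise

universe u v

variable {p : ℕ} [Fact p.Prime]
variable (F : Type u) (N : Type v) [Field F] [NumberField F] [Field N] [NumberField N]
  [Algebra F N] [IsGalois F N]

set_option linter.unusedVariables false in
/-- `N/F` Galois of prime degree `p`, unramified outside `R`; `Rr` = the ramified primes in `R`;
`S` class-generating.  If `g : Nˣ` has `ord_Q g = ord_{Q'} g` whenever `Q, Q'` lie over the same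
prime `v ∉ S`, and `p ∣ ord_Q g` for the primes `Q` above the elements of `Rr`, then there is
`c : Fˣ` with `g / c` an `S`-unit of `N`. -/
theorem H1.exists_div_mem_SUnits (hdeg : Module.finrank F N = p)
    (R : Finset (Ideal (𝓞 F))) (hR : ∀ w ∈ R, w.IsPrime ∧ w ≠ ⊥)
    (hram : ∀ Q : Ideal (𝓞 N), Q.IsPrime → Q ≠ ⊥ → Q.under (𝓞 F) ∉ R → UnramifiedAt F N Q)
    (S : Finset (Ideal (𝓞 F))) (hgen : ClassGen F (S : Set (Ideal (𝓞 F))))
    (Rr : Finset (Ideal (𝓞 F))) (hRr : ∀ w, w ∈ Rr ↔ w ∈ R ∧ IsRam F N w) (g : Nˣ)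
    (hconst : ∀ v : Ideal (𝓞 F), v ≠ ⊥ → v ∉ S → ∀ Q Q' : Ideal (𝓞 N), Q.IsPrime → Q'.IsPrime →
      Q.LiesOver v → Q'.LiesOver v → ord N Q (g : N) = ord N Q' (g : N))
    (hdiv : ∀ w ∈ Rr, ∀ Q : Ideal (𝓞 N), Q.IsPrime → Q.LiesOver w → (p : ℤ) ∣ ord N Q (g : N)) :
    ∃ c : Fˣ, g / unitsIncl F N c ∈ SUnits N (above F N (S : Set (Ideal (𝓞 F)))) := by
  classical
  -- a chosen prime of `N` above each nonzero prime of `F`
  have hex : ∀ v : Ideal (𝓞 F), v.IsPrime ∧ v ≠ ⊥ →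
      ∃ Q : Ideal (𝓞 N), Q.IsPrime ∧ Q.LiesOver v :=
    fun v h => exists_liesOver F N h.1 h.2
  choose Qv hQv using hex
  -- the prescribed valuations of `c`
  let a : Ideal (𝓞 F) → ℤ := fun v =>
    if h : v.IsPrime ∧ v ≠ ⊥ then
      (if v ∈ Rr then ord N (Qv v h) (g : N) / (p : ℤ) else ord N (Qv v h) (g : N))
    else 0
  have ha_mem : ∀ (v : Ideal (𝓞 F)) (h : v.IsPrime ∧ v ≠ ⊥), v ∈ Rr →
      a v = ord N (Qv v h) (g : N) / (p : ℤ) := by
    intro v h hv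
    simp only [a, dif_pos h, if_pos hv]
  have ha_nmem : ∀ (v : Ideal (𝓞 F)) (h : v.IsPrime ∧ v ≠ ⊥), v ∉ Rr →
      a v = ord N (Qv v h) (g : N) := by
    intro v h hv
    simp only [a, dif_pos h, if_neg hv]
  have ha_junk : ∀ v : Ideal (𝓞 F), ¬ (v.IsPrime ∧ v ≠ ⊥) → a v = 0 := by
    intro v h
    simp only [a, dif_neg h]
  -- finite support
  have hfin : {v | a v ≠ 0}.Finite := by
    refine Set.Finite.subset
      ((finite_ord_ne_zero N (g : N)).image (fun Q : Ideal (𝓞 N) => Q.under (𝓞 F))) ?_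
    intro v hv
    have hv' : a v ≠ 0 := hv
    by_cases h : v.IsPrime ∧ v ≠ ⊥
    · have hQ := hQv v h
      have hne : ord N (Qv v h) (g : N) ≠ 0 := by
        intro h0
        by_cases hvR : v ∈ Rr
        · rw [ha_mem v h hvR, h0, Int.zero_ediv] at hv'
          exact hv' rfl
        · rw [ha_nmem v h hvR, h0] at hv'
          exact hv' rfl
      exact ⟨Qv v h, ⟨hQ.1, ne_bot_of_liesOver F N h.2 hQ.2, hne⟩, hQ.2.over.symm⟩
    · exact absurd (ha_junk v h) hv'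
  obtain ⟨c, hc⟩ := hgen.exists_ord_eq F a hfin
  refine ⟨c, ?_⟩
  rw [mem_SUnits_iff]
  intro Q hQ hQ0 hQS
  obtain ⟨hv, hv0⟩ := under_isPrime_ne_bot F N hQ hQ0
  have hvS : Q.under (𝓞 F) ∉ (S : Set (Ideal (𝓞 F))) := fun h => hQS ⟨hQ, h⟩
  have hvS' : Q.under (𝓞 F) ∉ S := fun h => hvS (Finset.mem_coe.mpr h)
  have hQv' : Q.LiesOver (Q.under (𝓞 F)) := ⟨rfl⟩
  have hc0 : algebraMap F N (c : F) ≠ 0 := (unitsIncl F N c).ne_zero
  have hcoe : ((g / unitsIncl F N c : Nˣ) : N) = (g : N) / algebraMap F N (c : F) := by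
    rw [Units.val_div_eq_div_val, coe_unitsIncl]
  rw [hcoe, ord_div N Q g.ne_zero hc0]
  have hcv : ord F (Q.under (𝓞 F)) (c : F) = a (Q.under (𝓞 F)) := hc _ hv hv0 hvS
  have hQQ := hQv _ ⟨hv, hv0⟩
  have heq : ord N (Qv _ ⟨hv, hv0⟩) (g : N) = ord N Q (g : N) :=
    hconst _ hv0 hvS' _ _ hQQ.1 hQ hQQ.2 hQv'
  by_cases hvRr : Q.under (𝓞 F) ∈ Rr
  · -- ramified case
    obtain ⟨hvR, hramv⟩ := (hRr _).mp hvRr
    have hns := not_splitsCompletely_of_isRam F N hramv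
    obtain ⟨Q₀, hQ₀, hQ₀v, hnunr⟩ := hramv
    have hQ₀Q : Q₀ = Q :=
      eq_of_liesOver_of_not_splitsCompletely F N hdeg hv0 hns hQ₀ hQ hQ₀v hQv'
    rw [hQ₀Q] at hnunr
    have h1 := ord_algebraMap_of_ramified F N hdeg hQ hv0 hQv' hnunr (c : F)
    have hd : (p : ℤ) ∣ ord N (Qv _ ⟨hv, hv0⟩) (g : N) := hdiv _ hvRr _ hQQ.1 hQQ.2
    rw [h1, hcv, ha_mem _ ⟨hv, hv0⟩ hvRr, Int.mul_ediv_cancel' hd, heq, sub_self]
  · -- unramified case
    have hunr : UnramifiedAt F N Q := by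
      by_cases hvR : Q.under (𝓞 F) ∈ R
      · by_contra hn
        exact hvRr ((hRr _).mpr ⟨hvR, ⟨Q, hQ, hQv', hn⟩⟩)
      · exact hram Q hQ hQ0 hvR
    have h1 := ord_algebraMap_of_unramified F N hQ hv0 hQv' hunr (c : F)
    rw [h1, hcv, ha_nmem _ ⟨hv, hv0⟩ hvRr, heq, sub_self]

end Fermat.Agent.S14.FirstIneq
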