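import Fermat.Agent.S14.FirstIneq.OrdRel

/-!
# S14 / FirstIneq / H1 / Orbit : if `σ g / g` is an `S`-unit, the valuations of `g` are constant
on the Galois orbits of primes not above `S` (block architect of `H1`: helper32).
-/

set_option autoImplicit false
set_option linter.unusedSectionVars false

namespace Fermat.Agent.S14.FirstIneq

open NumberField IsDedekindDomain UniqueFactorizationMonoid
open scoped Pointwise

universe u v

variable {p : ℕ} [Fact p.Prime]
variable (F : Type u) (N : Type v) [Field F] [NumberField F] [Field N] [NumberField N]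
  [Algebra F N] [IsGalois F N]

/-- If `σ g / g` is a unit outside the primes above `S` (`σ` a generator of `Gal(N/F)`, of prime
order `p`), then `ord_Q g = ord_{Q'} g` for any two primes `Q, Q'` of `N` above the same nonzero
prime `v ∉ S` of `F`. -/
theorem H1.ord_eq_of_liesOver (hdeg : Module.finrank F N = p) {σ : N ≃ₐ[F] N} (hσ : σ ≠ 1)
    (S : Set (Ideal (𝓞 F))) {g : Nˣ}
    (hg : delHom (unitsAut F N σ) g ∈ SUnits N (above F N S))
    {v : Ideal (𝓞 F)} (hv0 : v ≠ ⊥) (hvS : v ∉ S) {Q Q' : Ideal (𝓞 N)}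
    (hQ : Q.IsPrime) (hQ' : Q'.IsPrime) (hQv : Q.LiesOver v) (hQ'v : Q'.LiesOver v) :
    ord N Q (g : N) = ord N Q' (g : N) := by
  -- step 1: invariance under `σ`
  have hstep : ∀ P : Ideal (𝓞 N), P.IsPrime → P.LiesOver v →
      ord N (σ • P) (g : N) = ord N P (g : N) := by
    intro P hP hPv
    obtain ⟨hσP, hσPv⟩ := smul_isPrime_liesOver F N hP hPv σ
    have hσP0 : σ • P ≠ ⊥ := ne_bot_of_liesOver F N hv0 hσPv
    have hnot : σ • P ∉ above F N S := by
      rintro ⟨-, hmem⟩
      rw [← hσPv.over] at hmem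
      exact hvS hmem
    have h0 := (mem_SUnits_iff N (above F N S) _).mp hg (σ • P) hσP hσP0 hnot
    have hcoe : ((delHom (unitsAut F N σ) g : Nˣ) : N) = σ (g : N) / (g : N) := by
      rw [delHom_apply, Units.val_div_eq_div_val, coe_unitsAut]
    have hσg : σ (g : N) ≠ 0 := by
      rw [Ne, map_eq_zero]
      exact g.ne_zero
    rw [hcoe, ord_div N _ hσg g.ne_zero, ord_smul F N σ P (g : N)] at h0
    omega
  -- step 2: the automorphisms with this invariance property form a subgroup containing `σ`
  let H : Subgroup (N ≃ₐ[F] N) :=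
    { carrier := {τ | ∀ P : Ideal (𝓞 N), P.IsPrime → P.LiesOver v →
        ord N (τ • P) (g : N) = ord N P (g : N)}
      one_mem' := fun P _ _ => by rw [one_smul]
      mul_mem' := fun {a b} ha hb P hP hPv => by
        rw [mul_smul, ha (b • P) (smul_isPrime_liesOver F N hP hPv b).1
          (smul_isPrime_liesOver F N hP hPv b).2, hb P hP hPv]
      inv_mem' := fun {a} ha P hP hPv => by
        have h1 := ha (a⁻¹ • P) (smul_isPrime_liesOver F N hP hPv a⁻¹).1
          (smul_isPrime_liesOver F N hP hPv a⁻¹).2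
        rw [smul_inv_smul] at h1
        exact h1.symm }
  have hσH : σ ∈ H := hstep
  obtain ⟨τ, hτ⟩ := exists_smul_eq_of_liesOver F N hQ hQ' hQv hQ'v hv0
  have hτH : τ ∈ H := (Subgroup.zpowers_le.mpr hσH) (mem_zpowers_of_ne_one F N hdeg hσ τ)
  rw [← hτ]
  exact (hτH Q hQ hQv).symm

end Fermat.Agent.S14.FirstIneq
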